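import Fermat.Agent.S25.DefsDict

/-!
# Row S25, bridge: `Stmt.Val` from the dictionary and `Stmt.AlgVal` (formal)
-/

set_option autoImplicit false
universe u
open CategoryTheory CategoryTheory.Limits AlgebraicGeometry AlgebraicGeometry.RelPicard
  NeronModelInfra GoodReductionJacobian

namespace Fermat.Agent.S25.Bridge

variable {k : Type u} [Field k] {C : Scheme.{u}} {c : C ⟶ Spec (CommRingCat.of k)}
  {ε : SchemeHomOver (𝟙 (Spec (CommRingCat.of k))) c}

/-- `Val` follows formally from the dictionary and `AlgVal`. -/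
theorem val_of_alg (Ch : ChartOf c ε) (hSec : Stmt.DictSections Ch) (hIso : Stmt.DictIso Ch)
    (hBC : Stmt.DictBC Ch) (hDeg : Stmt.DictDeg Ch) (hEx : Stmt.AlgBCExists Ch)
    (hVal : Stmt.AlgVal k Ch.B₀ Ch.B₁ Ch.B₀₁) : Stmt.Val c ε := by
  intro V _ _ _ _ K _ _ _ _ _ M M' hM hM' hK
  obtain ⟨G, hG, -⟩ := hSec V M
  obtain ⟨G', hG', -⟩ := hSec V M'
  obtain ⟨GK, hGK⟩ := hEx V K (IsScalarTower.toAlgHom k V K) G
  obtain ⟨GK', hGK'⟩ := hEx V K (IsScalarTower.toAlgHom k V K) G'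
  have h1 := hBC V K _ M G GK hG hGK
  have h2 := hBC V K _ M' G' GK' hG' hGK'
  have h3 : GK.IsIso GK' := (hIso K _ _ GK GK' h1 h2).1 hK
  have h4 : G.IsIso G' := hVal Ch.x Ch.y Ch.e Ch.isCurveChart V K G G' GK GK'
    ((hDeg V M G hG).1 hM) ((hDeg V M' G' hG').1 hM') hGK hGK' h3
  exact (hIso V M M' G G' hG hG').2 h4

end Fermat.Agent.S25.Bridge
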